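import Fermat.Agent.Lib.Ihara.Car.Mat

/-!
# IHARA / Carayol's lemma, part 2: adapted bases

* `ihc_exists_basis_involution` : a free module of rank two over a local ring with `2` invertible,
  with an involution of determinant `-1`, has a basis in which the involution is `diag(1, -1)`.
* `ihc_toMatrix_unitsSMul` : the matrix of an endomorphism in a rescaled basis.
-/

set_option autoImplicit false

open Matrix

namespace Fermat.Agent.Ihara

section

variable {R : Type*} [CommRing R] {V : Type*} [AddCommGroup V] [Module R V]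

/-- the matrix of an endomorphism in the image of a basis under a linear equivalence -/
theorem ihc_toMatrix_map {ι : Type*} [Fintype ι] [DecidableEq ι] (e : Module.Basis ι R V)
    (E : V ≃ₗ[R] V) (f : Module.End R V) :
    LinearMap.toMatrix (e.map E) (e.map E) f =
      LinearMap.toMatrix e e ((E.symm : V →ₗ[R] V) ∘ₗ f ∘ₗ (E : V →ₗ[R] V)) := by
  ext i j
  rw [LinearMap.toMatrix_apply, LinearMap.toMatrix_apply, Module.Basis.map_repr,
    Module.Basis.map_apply]
  rfl

/-- the matrix of an endomorphism in a rescaled basis -/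
theorem ihc_toMatrix_unitsSMul {ι : Type*} [Fintype ι] [DecidableEq ι] (e : Module.Basis ι R V)
    (w : ι → Rˣ) (f : Module.End R V) (i j : ι) :
    LinearMap.toMatrix (e.unitsSMul w) (e.unitsSMul w) f i j =
      (↑(w i)⁻¹ : R) * LinearMap.toMatrix e e f i j * (w j : R) := by
  have h1 : (e.unitsSMul w) j = (w j : R) • e j := by
    rw [Module.Basis.unitsSMul_apply, Units.smul_def]
  rw [LinearMap.toMatrix_apply, LinearMap.toMatrix_apply, Module.Basis.repr_unitsSMul, h1,
    map_smul, map_smul, Finsupp.smul_apply, Units.smul_def, smul_eq_mul, smul_eq_mul]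
  ring

variable [IsLocalRing R] [Module.Free R V] [Module.Finite R V]

/-- **a basis adapted to an involution of determinant `-1`** -/
theorem ihc_exists_basis_involution (h2 : IsUnit (2 : R)) (hV : Module.finrank R V = 2)
    (f : Module.End R V) (hf : f * f = 1) (hdet : LinearMap.det f = -1) :
    ∃ e : Module.Basis (Fin 2) R V, LinearMap.toMatrix e e f = !![1, 0; 0, -1] := by
  classical
  let e₀ : Module.Basis (Fin 2) R V := Module.finBasisOfFinrankEq R V hV
  set M := LinearMap.toMatrix e₀ e₀ f with hM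
  have hMM : M * M = 1 := by
    rw [hM, ← LinearMap.toMatrix_mul, hf, LinearMap.toMatrix_one]
  have hMdet : M.det = -1 := by rw [hM, LinearMap.det_toMatrix, hdet]
  obtain ⟨Q, hQ, hMQ⟩ := ihc_involution h2 M hMM hMdet
  -- the change of basis
  set g : V →ₗ[R] V := Matrix.toLin e₀ e₀ Q with hg
  have hgQ : LinearMap.toMatrix e₀ e₀ g = Q := by rw [hg, LinearMap.toMatrix_toLin]
  let E : V ≃ₗ[R] V := LinearEquiv.ofIsUnitDet (f := g) (v := e₀) (v' := e₀) (by rw [hgQ]; exact hQ)
  have hE : (E : V →ₗ[R] V) = g := by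
    ext v
    rfl
  refine ⟨e₀.map E, ?_⟩
  rw [ihc_toMatrix_map, LinearMap.toMatrix_comp e₀ e₀ e₀, LinearMap.toMatrix_comp e₀ e₀ e₀, hE, hgQ,
    ← hM, hMQ, ← Matrix.mul_assoc]
  have hX : LinearMap.toMatrix e₀ e₀ (E.symm : V →ₗ[R] V) * Q = 1 := by
    rw [← hgQ, ← hE, ← LinearMap.toMatrix_comp e₀ e₀ e₀]
    have : (E.symm : V →ₗ[R] V) ∘ₗ (E : V →ₗ[R] V) = LinearMap.id := by
      ext v
      simp
    rw [this, LinearMap.toMatrix_id]
  rw [hX, Matrix.one_mul]

end

end Fermat.Agent.Ihara
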