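import Fermat.Agent.Lib.Ihara.Car.Basis
import Fermat.Prelude.Def_GaloisRep_Adic

/-!
# IHARA / Carayol's lemma, part 3: descent of Galois representations

`ihc_carayol` : let `A` be a local ring with `2 ∈ Aˣ`, embedded (jointly injectively, by local
homomorphisms) in a finite product of local rings `𝒪 i`, and let `ρ i : G_ℚ → GL₂(𝒪 i)` be adic
Galois representations whose traces come from `A`, which are odd at an involution `c`, and one of
which is residually irreducible.  Assume the `𝔪_A`-adic topology of `A` is induced from the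
product.  Then there is `ρ_A : G_ℚ → GL₂(A)` with `ρ_A ⊗ 𝒪 i ≃ ρ i` for all `i`.
-/

set_option autoImplicit false

open Matrix
open scoped TensorProduct

namespace Fermat.Agent.Ihara

local notation "GQ" => (AlgebraicClosure ℚ ≃ₐ[ℚ] AlgebraicClosure ℚ)

section aux

variable {R : Type*} [CommRing R] {V : Type*} [AddCommGroup V] [Module R V]

/-- coordinates of an element of `I • ⊤` lie in `I` -/
theorem ihc_repr_mem {ι : Type*} (e : Module.Basis ι R V) (I : Ideal R) {x : V}
    (hx : x ∈ I • (⊤ : Submodule R V)) (a : ι) : e.repr x a ∈ I := by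
  refine Submodule.smul_induction_on (p := fun x => e.repr x a ∈ I) hx ?_ ?_
  · intro r hr v _
    rw [map_smul, Finsupp.smul_apply, smul_eq_mul]
    exact I.mul_mem_right _ hr
  · intro x y hx hy
    rw [map_add, Finsupp.add_apply]
    exact I.add_mem hx hy

/-- a vector all of whose coordinates lie in `I` lies in `I • ⊤` -/
theorem ihc_mem_smul_top {ι : Type*} [Fintype ι] (e : Module.Basis ι R V) (I : Ideal R) {x : V}
    (hx : ∀ a, e.repr x a ∈ I) : x ∈ I • (⊤ : Submodule R V) := by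
  rw [← e.sum_repr x]
  exact Submodule.sum_mem _ fun a _ => Submodule.smul_mem_smul (hx a) Submodule.mem_top

/-- two endomorphisms with the same matrix are intertwined by the equivalence of the bases -/
theorem ihc_equiv_intertwine {V' : Type*} [AddCommGroup V'] [Module R V'] {ι : Type*} [Fintype ι]
    [DecidableEq ι] (b : Module.Basis ι R V) (b' : Module.Basis ι R V') (f : Module.End R V)
    (f' : Module.End R V') (h : LinearMap.toMatrix b b f = LinearMap.toMatrix b' b' f') (x : V) :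
    (b.equiv b' (Equiv.refl ι)) (f x) = f' (b.equiv b' (Equiv.refl ι) x) := by
  have : ((b.equiv b' (Equiv.refl ι)) : V →ₗ[R] V') ∘ₗ f =
      f' ∘ₗ ((b.equiv b' (Equiv.refl ι)) : V →ₗ[R] V') := by
    refine b.ext fun j => ?_
    simp only [LinearMap.comp_apply, LinearEquiv.coe_coe, Module.Basis.equiv_apply,
      Equiv.refl_apply]
    rw [← b.sum_repr (f (b j)), ← b'.sum_repr (f' (b' j)), map_sum]
    refine Finset.sum_congr rfl fun i _ => ?_
    rw [map_smul, Module.Basis.equiv_apply, Equiv.refl_apply, ← LinearMap.toMatrix_apply b b,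
      ← LinearMap.toMatrix_apply b' b', h]
  exact LinearMap.congr_fun this x

end aux

section residual

variable {R : Type} [CommRing R] [IsLocalRing R]

theorem ihc_fin_two_aux : ∀ i j j' : Fin 2, j' ≠ j → i ≠ j → i = j' := by decide

/-- if the residual representation is irreducible, then in any basis some off-diagonal entry
`(j', j)` is a unit -/
theorem ihc_unit_offdiag_aux (ρ : GaloisRepAdic R) (e : Module.Basis (Fin 2) R ρ.V)
    (hirr : ρ.residual.IsIrreducible) (j j' : Fin 2) (hjj' : j' ≠ j) :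
    ∃ g, IsUnit (LinearMap.toMatrix e e (ρ.ρ g) j' j) := by
  classical
  by_contra hcon
  push Not at hcon
  let eb : Module.Basis (Fin 2) (IsLocalRing.ResidueField R)
    (IsLocalRing.ResidueField R ⊗[R] ρ.V) := Algebra.TensorProduct.basis _ e
  have hmat : ∀ σ, LinearMap.toMatrix eb eb ((ρ.ρ σ).baseChange (IsLocalRing.ResidueField R)) =
      (LinearMap.toMatrix e e (ρ.ρ σ)).map (algebraMap R (IsLocalRing.ResidueField R)) := fun σ =>
    LinearMap.toMatrix_baseChange (IsLocalRing.ResidueField R) (ρ.ρ σ) e e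
  have hzero : ∀ σ,
      LinearMap.toMatrix eb eb ((ρ.ρ σ).baseChange (IsLocalRing.ResidueField R)) j' j = 0 := by
    intro σ
    rw [hmat, Matrix.map_apply, IsLocalRing.ResidueField.algebraMap_eq,
      IsLocalRing.residue_eq_zero_iff]
    exact hcon σ
  let W : Submodule (IsLocalRing.ResidueField R) (IsLocalRing.ResidueField R ⊗[R] ρ.V) :=
    Submodule.span _ {eb j}
  have hstab : ∀ σ : GQ, ∀ x ∈ W, (ρ.ρ σ).baseChange (IsLocalRing.ResidueField R) x ∈ W := by
    intro σ x hx
    obtain ⟨a, rfl⟩ := Submodule.mem_span_singleton.mp hx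
    rw [map_smul]
    refine W.smul_mem _ ?_
    rw [← eb.sum_repr ((ρ.ρ σ).baseChange (IsLocalRing.ResidueField R) (eb j))]
    refine Submodule.sum_mem _ fun i _ => ?_
    by_cases hij : i = j
    · subst hij
      exact W.smul_mem _ (Submodule.subset_span rfl)
    · have := hzero σ
      rw [LinearMap.toMatrix_apply, ← ihc_fin_two_aux i j j' hjj' hij] at this
      rw [this, zero_smul]
      exact W.zero_mem
  have hW : W = ⊥ ∨ W = ⊤ := hirr W hstab
  rcases hW with hW | hW
  · have : eb j ∈ W := Submodule.subset_span rfl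
    rw [hW, Submodule.mem_bot] at this
    exact eb.ne_zero j this
  · have : eb j' ∈ W := by rw [hW]; exact Submodule.mem_top
    obtain ⟨a, ha⟩ := Submodule.mem_span_singleton.mp this
    have h1 := congrArg (fun v => eb.repr v j') ha
    simp only [map_smul, Module.Basis.repr_self, Finsupp.smul_apply, Finsupp.single_apply,
      if_neg hjj'.symm, smul_eq_mul, mul_zero, if_true] at h1
    exact zero_ne_one h1

theorem ihc_unit_offdiag (ρ : GaloisRepAdic R) (e : Module.Basis (Fin 2) R ρ.V)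
    (hirr : ρ.residual.IsIrreducible) :
    (∃ g, IsUnit (LinearMap.toMatrix e e (ρ.ρ g) 0 1)) ∧
      (∃ h, IsUnit (LinearMap.toMatrix e e (ρ.ρ h) 1 0)) :=
  ⟨ihc_unit_offdiag_aux ρ e hirr 1 0 (by decide), ihc_unit_offdiag_aux ρ e hirr 0 1 (by decide)⟩

end residual

section equiv

/-- a representation over `A` whose matrices map to those of `ρB` becomes equivalent to `ρB` after
base change -/
theorem ihc_isEquiv_baseChange {A B : Type} [CommRing A] [IsLocalRing A] [CommRing B]
    [IsLocalRing B] (φ : A →+* B) (hφ : IsLocalHom φ) (ρA : GaloisRepAdic A)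
    (ρB : GaloisRepAdic B) (eA : Module.Basis (Fin 2) A ρA.V) (eB : Module.Basis (Fin 2) B ρB.V)
    (h : ∀ g, (LinearMap.toMatrix eA eA (ρA.ρ g)).map φ = LinearMap.toMatrix eB eB (ρB.ρ g)) :
    (ρA.baseChangeAlong φ hφ).IsEquiv ρB := by
  classical
  let _ : Algebra A B := φ.toAlgebra
  let bc : Module.Basis (Fin 2) B (B ⊗[A] ρA.V) := Algebra.TensorProduct.basis B eA
  refine ⟨{ toLinearEquiv := bc.equiv eB (Equiv.refl _), map_apply := fun σ x => ?_ }⟩
  refine ihc_equiv_intertwine bc eB ((ρA.ρ σ).baseChange B) (ρB.ρ σ) ?_ x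
  rw [LinearMap.toMatrix_baseChange, ← h σ]
  rfl

end equiv

section main

variable {ι : Type} (𝒪 : ι → Type) [∀ i, CommRing (𝒪 i)] [∀ i, IsLocalRing (𝒪 i)]

/-- the matrices of a family of representations in a family of bases, as one representation
over the product ring -/
noncomputable def ihcMatRep (ρ : ∀ i, GaloisRepAdic (𝒪 i))
    (e : ∀ i, Module.Basis (Fin 2) (𝒪 i) (ρ i).V) :
    GQ →* Matrix (Fin 2) (Fin 2) (∀ i, 𝒪 i) where
  toFun g := Matrix.of fun a b i => LinearMap.toMatrix (e i) (e i) ((ρ i).ρ g) a b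
  map_one' := by
    ext a b i
    simp only [map_one, LinearMap.toMatrix_one, Matrix.of_apply, Matrix.one_apply]
    split_ifs <;> rfl
  map_mul' g h := by
    ext a b i
    simp only [map_mul, LinearMap.toMatrix_mul, Matrix.of_apply, Matrix.mul_apply,
      Finset.sum_apply, Pi.mul_apply]

theorem ihcMatRep_apply (ρ : ∀ i, GaloisRepAdic (𝒪 i))
    (e : ∀ i, Module.Basis (Fin 2) (𝒪 i) (ρ i).V) (g : GQ) (a b : Fin 2) (i : ι) :
    ihcMatRep 𝒪 ρ e g a b i = LinearMap.toMatrix (e i) (e i) ((ρ i).ρ g) a b := rfl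

/-- traces in the product ring -/
theorem ihcMatRep_trace (ρ : ∀ i, GaloisRepAdic (𝒪 i))
    (e : ∀ i, Module.Basis (Fin 2) (𝒪 i) (ρ i).V) (g : GQ) (i : ι) :
    (ihcMatRep 𝒪 ρ e g 0 0 + ihcMatRep 𝒪 ρ e g 1 1) i = (ρ i).trace g := by
  rw [Pi.add_apply, ihcMatRep_apply, ihcMatRep_apply, GaloisRepAdic.trace,
    LinearMap.trace_eq_matrix_trace (𝒪 i) (e i), Matrix.trace_fin_two]

variable {A : Type} [CommRing A] [IsLocalRing A]

/-- **Carayol's lemma** (with Wiles' involution trick). -/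
theorem ihc_carayol [Finite ι] (emb : ∀ i, A →+* 𝒪 i) (hloc : ∀ i, IsLocalHom (emb i))
    (hinj : ∀ a : A, (∀ i, emb i a = 0) → a = 0) (h2 : IsUnit (2 : A))
    (ρ : ∀ i, GaloisRepAdic (𝒪 i))
    (htr : ∀ σ : GQ, ∃ a : A, ∀ i, emb i a = (ρ i).trace σ)
    (c : GQ) (hc : c * c = 1) (hodd : ∀ i, LinearMap.det ((ρ i).ρ c) = -1)
    (hirr : ∃ i, (ρ i).residual.IsIrreducible)
    (hcont : ∀ n : ℕ, ∃ n' : ℕ, ∀ a : A,
      (∀ i, emb i a ∈ IsLocalRing.maximalIdeal (𝒪 i) ^ n') →
        a ∈ IsLocalRing.maximalIdeal A ^ n) :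
    ∃ ρA : GaloisRepAdic A,
      (∀ i, (ρA.baseChangeAlong (emb i) (hloc i)).IsEquiv (ρ i)) ∧
      ∀ σ i, emb i (ρA.trace σ) = (ρ i).trace σ := by
  classical
  cases nonempty_fintype ι
  have h2i : ∀ i, IsUnit (2 : 𝒪 i) := fun i => by
    have := h2.map (emb i)
    rwa [map_ofNat] at this
  -- (1) bases adapted to `c`
  have hb0 : ∀ i, ∃ e : Module.Basis (Fin 2) (𝒪 i) (ρ i).V,
      LinearMap.toMatrix e e ((ρ i).ρ c) = !![1, 0; 0, -1] := fun i =>
    ihc_exists_basis_involution (h2i i) (ρ i).finrank_eq ((ρ i).ρ c)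
      (by rw [← map_mul, hc, map_one]) (hodd i)
  choose e0 he0 using hb0
  -- the embedding in the product
  let φ : A →+* (∀ i, 𝒪 i) := RingHom.pi emb
  have hφ : Function.Injective φ := by
    rw [injective_iff_map_eq_zero]
    intro a ha
    exact hinj a fun i => congrFun ha i
  have htrace : ∀ (e : ∀ i, Module.Basis (Fin 2) (𝒪 i) (ρ i).V) (g : GQ),
      ihcMatRep 𝒪 ρ e g 0 0 + ihcMatRep 𝒪 ρ e g 1 1 ∈ φ.range := by
    intro e g
    obtain ⟨a, ha⟩ := htr g
    refine ⟨a, ?_⟩
    ext i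
    rw [ihcMatRep_trace, ← ha i]
    rfl
  have hc0 : ihcMatRep 𝒪 ρ e0 c = !![1, 0; 0, -1] := by
    ext a b i
    rw [ihcMatRep_apply, he0 i]
    fin_cases a <;> fin_cases b <;> simp
  -- (3) unit off-diagonal entries
  obtain ⟨i₀, hi₀⟩ := hirr
  obtain ⟨⟨g₁, hg₁⟩, ⟨h₁, hh₁⟩⟩ := ihc_unit_offdiag (ρ i₀) (e0 i₀) hi₀
  obtain ⟨a₁, ha₁⟩ := ihc_offdiag_mul_mem φ h2 (ihcMatRep 𝒪 ρ e0) (htrace e0) hc0 g₁ h₁
  have ha₁' : ∀ i, emb i a₁ = LinearMap.toMatrix (e0 i) (e0 i) ((ρ i).ρ g₁) 0 1 *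
      LinearMap.toMatrix (e0 i) (e0 i) ((ρ i).ρ h₁) 1 0 := fun i => congrFun ha₁ i
  have hu₁ : IsUnit a₁ := by
    have := hloc i₀
    apply isUnit_of_map_unit (emb i₀)
    rw [ha₁']
    exact hg₁.mul hh₁
  have hβ : ∀ i, IsUnit (LinearMap.toMatrix (e0 i) (e0 i) ((ρ i).ρ g₁) 0 1) := fun i => by
    have := hu₁.map (emb i)
    rw [ha₁'] at this
    exact isUnit_of_mul_isUnit_left this
  -- (4) rescale
  let β : ∀ i, (𝒪 i)ˣ := fun i => (hβ i).unit
  have hβv : ∀ i, (β i : 𝒪 i) = LinearMap.toMatrix (e0 i) (e0 i) ((ρ i).ρ g₁) 0 1 := fun i =>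
    (hβ i).unit_spec
  let w : ∀ i, Fin 2 → (𝒪 i)ˣ := fun i => ![1, (β i)⁻¹]
  let e : ∀ i, Module.Basis (Fin 2) (𝒪 i) (ρ i).V := fun i => (e0 i).unitsSMul (w i)
  have hentry : ∀ i (f : Module.End (𝒪 i) (ρ i).V) (a b : Fin 2),
      LinearMap.toMatrix (e i) (e i) f a b =
        (↑(w i a)⁻¹ : 𝒪 i) * LinearMap.toMatrix (e0 i) (e0 i) f a b * (w i b : 𝒪 i) := fun i f a b =>
    ihc_toMatrix_unitsSMul (e0 i) (w i) f a b
  have hc1 : ihcMatRep 𝒪 ρ e c = !![1, 0; 0, -1] := by
    ext a b i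
    rw [ihcMatRep_apply, hentry, he0 i]
    fin_cases a <;> fin_cases b <;> simp [w]
  have hb1 : ihcMatRep 𝒪 ρ e g₁ 0 1 = 1 := by
    ext i
    rw [ihcMatRep_apply, hentry, ← hβv]
    simp [w]
  have hcu1 : ihcMatRep 𝒪 ρ e h₁ 1 0 = φ (hu₁.unit : Aˣ) := by
    ext i
    rw [ihcMatRep_apply, hentry, IsUnit.unit_spec]
    show _ = emb i a₁
    rw [ha₁', ← hβv]
    simp [w]
  -- (5) descend
  obtain ⟨t, ht⟩ := ihc_descend φ h2 (ihcMatRep 𝒪 ρ e) (htrace e) hc1 hb1 hcu1 hφ
  have hkey : ∀ g i, (t g).map (emb i) = LinearMap.toMatrix (e i) (e i) ((ρ i).ρ g) := by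
    intro g i
    ext a b
    have := congrFun (congrFun (congrFun (ht g) a) b) i
    rw [ihcMatRep_apply] at this
    rw [← this]
    rfl
  have hkey' : ∀ g i a b, emb i (t g a b) = LinearMap.toMatrix (e i) (e i) ((ρ i).ρ g) a b :=
    fun g i a b => by rw [← hkey g i]; rfl
  -- (6) the representation over `A`
  have hcontA : GaloisActionIsAdicContinuous A
      ({ toFun := fun g => Matrix.toLin' (t g)
         map_one' := by rw [map_one, Matrix.toLin'_one]; rfl
         map_mul' := fun g h => by rw [map_mul, Matrix.toLin'_mul]; rfl } :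
        GQ →* Module.End A (Fin 2 → A)) := by
    intro n
    obtain ⟨n', hn'⟩ := hcont n
    choose L hL h1 using fun i => (ρ i).isAdicContinuous n'
    refine ⟨⨆ i, L i, IntermediateField.finiteDimensional_iSup_of_finite, fun σ hσ v => ?_⟩
    have hσi : ∀ i, ∀ x ∈ L i, σ x = x := fun i x hx => hσ x ((le_iSup L i) hx)
    have hent : ∀ a b, t σ a b - (1 : Matrix (Fin 2) (Fin 2) A) a b ∈
        IsLocalRing.maximalIdeal A ^ n := by
      intro a b
      refine hn' _ fun i => ?_
      have h3 := ihc_repr_mem (e i) _ (h1 i σ (hσi i) (e i b)) a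
      have h4 : emb i (t σ a b - (1 : Matrix (Fin 2) (Fin 2) A) a b) =
          (e i).repr ((ρ i).ρ σ (e i b) - e i b) a := by
        rw [map_sub, hkey', LinearMap.toMatrix_apply, map_sub, Finsupp.sub_apply,
          Module.Basis.repr_self, Matrix.one_apply, Finsupp.single_apply]
        by_cases hab : a = b
        · subst hab
          simp
        · rw [if_neg hab, if_neg (Ne.symm hab), map_zero]
      rw [h4]
      exact h3
    show Matrix.toLin' (t σ) v - v ∈ _
    refine ihc_mem_smul_top (Pi.basisFun A (Fin 2)) _ fun a => ?_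
    rw [Pi.basisFun_repr, Pi.sub_apply, Matrix.toLin'_apply, Matrix.mulVec, dotProduct]
    have h5 : ∑ b, t σ a b * v b - v a =
        ∑ b, (t σ a b - (1 : Matrix (Fin 2) (Fin 2) A) a b) * v b := by
      simp only [sub_mul, Finset.sum_sub_distrib, Matrix.one_apply, ite_mul, one_mul, zero_mul,
        Finset.sum_ite_eq, Finset.mem_univ, if_true]
    rw [h5]
    exact Ideal.sum_mem _ fun b _ => Ideal.mul_mem_right _ _ (hent a b)
  let ρA : GaloisRepAdic A :=
    { V := Fin 2 → A
      finrank_eq := Module.finrank_fin_fun A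
      ρ := { toFun := fun g => Matrix.toLin' (t g)
             map_one' := by rw [map_one, Matrix.toLin'_one]; rfl
             map_mul' := fun g h => by rw [map_mul, Matrix.toLin'_mul]; rfl }
      isAdicContinuous := hcontA }
  have hρA : ∀ g, LinearMap.toMatrix (Pi.basisFun A (Fin 2)) (Pi.basisFun A (Fin 2)) (ρA.ρ g) =
      t g := by
    intro g
    show LinearMap.toMatrix (Pi.basisFun A (Fin 2)) (Pi.basisFun A (Fin 2))
      (Matrix.toLin' (t g)) = t g
    rw [LinearMap.toMatrix_eq_toMatrix', LinearMap.toMatrix'_toLin']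
  refine ⟨ρA, fun i => ?_, fun σ i => ?_⟩
  · refine ihc_isEquiv_baseChange (emb i) (hloc i) ρA (ρ i) (Pi.basisFun A (Fin 2)) (e i)
      fun g => ?_
    rw [hρA, hkey]
  · rw [GaloisRepAdic.trace, GaloisRepAdic.trace,
      LinearMap.trace_eq_matrix_trace A (Pi.basisFun A (Fin 2)), hρA,
      LinearMap.trace_eq_matrix_trace (𝒪 i) (e i), ← hkey, Matrix.trace_fin_two,
      Matrix.trace_fin_two, map_add]
    rfl

end main

end Fermat.Agent.Ihara
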