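import Mathlib

/-!
# IHARA / Carayol's lemma, part 1: the matrix argument (Wiles' trick with an involution)

* `ihc_involution` : over a local ring in which `2` is a unit, a `2 × 2` matrix `M` with `M² = 1`
  and `det M = -1` is conjugate to `diag(1, -1)`.
* `ihc_entries_mem` : let `φ : A → A'` be a ring homomorphism with `2 ∈ Aˣ`, `r : G → M₂(A')` a
  monoid homomorphism with traces in `φ(A)`, `r c = diag(1, -1)`, `r g₁ 0 1 = 1` and
  `r h₁ 1 0 ∈ φ(Aˣ)`.  Then all entries of all `r g` lie in `φ(A)`.
* `ihc_descend` : if moreover `φ` is injective, `r` descends to `t : G → M₂(A)`.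
-/

set_option autoImplicit false

open Matrix

namespace Fermat.Agent.Ihara

section involution

variable {R : Type*} [CommRing R] [IsLocalRing R]

/-- an involution of determinant `-1` over a local ring with `2` invertible is conjugate to
`diag(1, -1)` -/
theorem ihc_involution (h2 : IsUnit (2 : R)) (M : Matrix (Fin 2) (Fin 2) R) (hM : M * M = 1)
    (hdet : M.det = -1) :
    ∃ Q : Matrix (Fin 2) (Fin 2) R, IsUnit Q.det ∧ M * Q = Q * !![1, 0; 0, -1] := by
  -- entries
  have e00 : M 0 0 * M 0 0 + M 0 1 * M 1 0 = 1 := by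
    have := congrFun (congrFun hM 0) 0
    simpa [Matrix.mul_apply, Fin.sum_univ_two] using this
  have e01 : M 0 0 * M 0 1 + M 0 1 * M 1 1 = 0 := by
    have := congrFun (congrFun hM 0) 1
    simpa [Matrix.mul_apply, Fin.sum_univ_two] using this
  have e10 : M 1 0 * M 0 0 + M 1 1 * M 1 0 = 0 := by
    have := congrFun (congrFun hM 1) 0
    simpa [Matrix.mul_apply, Fin.sum_univ_two] using this
  have e11 : M 1 0 * M 0 1 + M 1 1 * M 1 1 = 1 := by
    have := congrFun (congrFun hM 1) 1
    simpa [Matrix.mul_apply, Fin.sum_univ_two] using this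
  have ed : M 0 0 * M 1 1 - M 0 1 * M 1 0 = -1 := by
    rw [← hdet, Matrix.det_fin_two]
  -- the trace vanishes
  have htr : M 0 0 + M 1 1 = 0 := by
    have h1 : (M 0 0 + M 1 1) * M 0 0 = 0 := by linear_combination e00 + ed
    have h2' : (M 0 0 + M 1 1) * M 1 1 = 0 := by linear_combination e11 + ed
    have h3 : (M 0 0 + M 1 1) * M 0 1 = 0 := by linear_combination e01
    have h4 : (M 0 0 + M 1 1) * M 1 0 = 0 := by linear_combination e10
    have : (M 0 0 + M 1 1) * (M 0 0 * M 1 1 - M 0 1 * M 1 0) = 0 := by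
      linear_combination (M 1 1) * h1 - (M 1 0) * h3
    rw [ed] at this
    linear_combination -this
  set a := M 0 0 with ha
  set b := M 0 1 with hb
  set c := M 1 0 with hc
  have hd : M 1 1 = -a := by linear_combination htr
  have habc : a * a + b * c = 1 := e00
  -- one of `a + 1`, `a - 1` is a unit
  have hunit : IsUnit (a + 1) ∨ IsUnit (a - 1) := by
    by_contra hcon
    push Not at hcon
    have h1 : a + 1 ∈ IsLocalRing.maximalIdeal R := hcon.1
    have h2' : a - 1 ∈ IsLocalRing.maximalIdeal R := hcon.2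
    have : (2 : R) ∈ IsLocalRing.maximalIdeal R := by
      have := Ideal.sub_mem _ h1 h2'
      have e : a + 1 - (a - 1) = 2 := by ring
      rwa [e] at this
    exact this h2
  have hMeq : M = !![a, b; c, -a] := by
    ext i j
    fin_cases i <;> fin_cases j <;> simp [ha, hb, hc, hd]
  rcases hunit with hu | hu
  · refine ⟨!![a + 1, b; c, -(a + 1)], ?_, ?_⟩
    · rw [Matrix.det_fin_two_of]
      have e : (a + 1) * -(a + 1) - b * c = -(2 * (a + 1)) := by linear_combination -habc
      rw [e]
      exact (h2.mul hu).neg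
    · rw [hMeq]
      ext i j
      fin_cases i <;> fin_cases j <;>
        simp [Matrix.mul_apply, Fin.sum_univ_two] <;>
        first | ring1 | linear_combination habc
  · refine ⟨!![b, a - 1; 1 - a, c], ?_, ?_⟩
    · rw [Matrix.det_fin_two_of]
      have e : b * c - (a - 1) * (1 - a) = -(2 * (a - 1)) := by linear_combination habc
      rw [e]
      exact (h2.mul hu).neg
    · rw [hMeq]
      ext i j
      fin_cases i <;> fin_cases j <;>
        simp [Matrix.mul_apply, Fin.sum_univ_two] <;>
        first | ring1 | linear_combination habc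

end involution

section descend

variable {A A' G : Type*} [CommRing A] [CommRing A'] [Monoid G] (φ : A →+* A')
  (h2 : IsUnit (2 : A)) (r : G →* Matrix (Fin 2) (Fin 2) A')
  (htr : ∀ g, (r g) 0 0 + (r g) 1 1 ∈ φ.range)
  {c : G} (hc : r c = !![1, 0; 0, -1])
include h2 htr hc

/-- the diagonal entries lie in the image of `A` -/
theorem ihc_diag_mem (g : G) : (r g) 0 0 ∈ φ.range ∧ (r g) 1 1 ∈ φ.range := by
  have hmul : ∀ g, r (c * g) = !![1, 0; 0, -1] * r g := fun g => by rw [map_mul, hc]
  have hdiff : ∀ g, (r g) 0 0 - (r g) 1 1 ∈ φ.range := by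
    intro g
    have := htr (c * g)
    rw [hmul g] at this
    simpa [Matrix.mul_apply, Fin.sum_univ_two, sub_eq_add_neg] using this
  obtain ⟨w, hw⟩ := h2
  have hw2 : (2 : A') * φ (↑w⁻¹ : A) = 1 := by
    have : (2 : A) * (↑w⁻¹ : A) = 1 := by rw [← hw]; exact w.mul_inv
    have := congrArg φ this
    rwa [map_mul, map_ofNat, map_one] at this
  obtain ⟨x, hx⟩ := htr g
  obtain ⟨y, hy⟩ := hdiff g
  constructor
  · refine ⟨(↑w⁻¹ : A) * (x + y), ?_⟩
    rw [map_mul, map_add, hx, hy]
    linear_combination ((r g) 0 0) * hw2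
  · refine ⟨(↑w⁻¹ : A) * (x - y), ?_⟩
    rw [map_mul, map_sub, hx, hy]
    linear_combination ((r g) 1 1) * hw2

/-- products of off-diagonal entries lie in the image of `A` -/
theorem ihc_offdiag_mul_mem (g h : G) : (r g) 0 1 * (r h) 1 0 ∈ φ.range := by
  have ha := fun g => (ihc_diag_mem φ h2 r htr hc g).1
  have e : (r g) 0 1 * (r h) 1 0 = (r (g * h)) 0 0 - (r g) 0 0 * (r h) 0 0 := by
    rw [map_mul, Matrix.mul_apply, Fin.sum_univ_two]
    ring
  rw [e]
  exact Subring.sub_mem _ (ha _) (Subring.mul_mem _ (ha _) (ha _))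

variable {g₁ h₁ : G} (hb : (r g₁) 0 1 = 1) {u : Aˣ} (hcu : (r h₁) 1 0 = φ u)
include hb hcu

/-- all entries lie in the image of `A` -/
theorem ihc_entries_mem (g : G) (i j : Fin 2) : (r g) i j ∈ φ.range := by
  have ha := fun g => (ihc_diag_mem φ h2 r htr hc g).1
  have hd := fun g => (ihc_diag_mem φ h2 r htr hc g).2
  have hbc := ihc_offdiag_mul_mem φ h2 r htr hc
  have hcc : ∀ h, (r h) 1 0 ∈ φ.range := by
    intro h
    have := hbc g₁ h
    rwa [hb, one_mul] at this
  have hbb : ∀ g, (r g) 0 1 ∈ φ.range := by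
    intro g
    obtain ⟨x, hx⟩ := hbc g h₁
    refine ⟨x * (↑u⁻¹ : A), ?_⟩
    rw [map_mul, hx, hcu, mul_assoc, ← map_mul, Units.mul_inv, map_one, mul_one]
  fin_cases i <;> fin_cases j
  · exact ha g
  · exact hbb g
  · exact hcc g
  · exact hd g

/-- **descent of a matrix representation along an injective ring homomorphism** -/
theorem ihc_descend (hφ : Function.Injective φ) :
    ∃ t : G →* Matrix (Fin 2) (Fin 2) A, ∀ g, (t g).map φ = r g := by
  classical
  have hmem := ihc_entries_mem φ h2 r htr hc hb hcu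
  choose f hf using hmem
  have hmap : ∀ g, (Matrix.of fun i j => f g i j).map φ = r g := by
    intro g
    ext i j
    simp [hf]
  have hinj : Function.Injective (fun M : Matrix (Fin 2) (Fin 2) A => M.map φ) := by
    intro M N h
    ext i j
    apply hφ
    have := congrFun (congrFun h i) j
    simpa using this
  refine ⟨{ toFun := fun g => Matrix.of fun i j => f g i j
            map_one' := ?_
            map_mul' := ?_ }, hmap⟩
  · apply hinj
    show (Matrix.of fun i j => f 1 i j).map φ = (1 : Matrix (Fin 2) (Fin 2) A).map φ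
    rw [hmap, map_one, Matrix.map_one _ (map_zero φ) (map_one φ)]
  · intro g h
    apply hinj
    show (Matrix.of fun i j => f (g * h) i j).map φ =
      ((Matrix.of fun i j => f g i j) * (Matrix.of fun i j => f h i j)).map φ
    rw [Matrix.map_mul, hmap, hmap, hmap, map_mul]

end descend

end Fermat.Agent.Ihara
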